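/-
The Hecke correspondence on the divisor class group of `X₀(N)` is defined: the inputs of
`heckeOperatorAlong` hold for every level `N` and every `ℓ`, over every field of characteristic
zero.
-/
import Fermat.Prelude.Def_ModularCurve_HeckeOperatorTotal
import Fermat.Agent.Curve.BasicModular

set_option autoImplicit false

noncomputable section

namespace Fermat.Agent.HeckeJ

open AlgebraicCurve ModularCurve

universe u

variable (L : Type u) [Field L] [Algebra ℚ L]
variable (N ℓ : ℕ) [NeZero N] [NeZero ℓ]

theorem finiteAlong_heckeAlphaBar : FiniteAlong L (heckeAlphaBar L N ℓ) :=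
  Curve.finiteAlong _

theorem finiteAlong_heckeBetaBar : FiniteAlong L (heckeBetaBar L N ℓ) :=
  Curve.finiteAlong _

theorem isIntegral_of_finiteAlong {K F F' : Type*} [Field K] [Field F] [Field F'] [Algebra K F]
    [Algebra K F'] (φ : F →ₐ[K] F') (h : FiniteAlong K φ) : φ.toRingHom.IsIntegral :=
  RingHom.IsIntegral.of_finite h

theorem heckeAlphaBarIntegral : HeckeAlphaBarIntegral L N ℓ :=
  isIntegral_of_finiteAlong _ (finiteAlong_heckeAlphaBar L N ℓ)

theorem heckeBetaBarIntegral : HeckeBetaBarIntegral L N ℓ :=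
  isIntegral_of_finiteAlong _ (finiteAlong_heckeBetaBar L N ℓ)

theorem hasPrincipalDivisors_laurentBaseChange :
    HasPrincipalDivisors L (laurentBaseChange L (modularFunctionFieldFull N)) :=
  inferInstance

theorem fundamentalIdentityAlong_heckeBetaBar
    [HasPrincipalDivisors L (laurentBaseChange L (modularFunctionFieldFull (N * ℓ)))] :
    FundamentalIdentityAlong L (heckeBetaBar L N ℓ) (heckeBetaBarIntegral L N ℓ) :=
  Curve.fundamentalIdentityAlong _ _ (finiteAlong_heckeBetaBar L N ℓ)

theorem normFormulaAlong_heckeAlphaBar :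
    NormFormulaAlong L (heckeAlphaBar L N ℓ) (finiteAlong_heckeAlphaBar L N ℓ) :=
  Curve.normFormulaAlong _ _

/-- The Hecke correspondence is defined for all levels. -/
theorem heckeInputsAlong : HeckeInputsAlong L N ℓ :=
  haveI : NeZero (N * ℓ) := inferInstance
  haveI := hasPrincipalDivisors_laurentBaseChange L (N * ℓ)
  heckeInputsAlong_intro (heckeAlphaBarIntegral L N ℓ) (heckeBetaBarIntegral L N ℓ)
    (fundamentalIdentityAlong_heckeBetaBar L N ℓ) (finiteAlong_heckeAlphaBar L N ℓ)
    (normFormulaAlong_heckeAlphaBar L N ℓ)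

end Fermat.Agent.HeckeJ

end
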