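/-
The degree of `X₀(Nℓ) → X₀(N)`.
-/
import Fermat.Agent.HeckeJ.Inputs
import Fermat.Agent.ModFun.Field
import Fermat.Agent.Gamma0.PsiIdentity

set_option autoImplicit false
set_option linter.style.haveILetI false

noncomputable section

namespace Fermat.Agent.HeckeJ

open AlgebraicCurve ModularCurve IntermediateField

theorem finrankAlong_inclusion {K E : Type*} [Field K] [Field E] [Algebra K E]
    {A B : IntermediateField K E} (h : A ≤ B) :
    finrankAlong K (IntermediateField.inclusion h) = IntermediateField.relfinrank A B := by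
  rw [IntermediateField.relfinrank_eq_finrank_of_le h]
  letI := algebraAlong (IntermediateField.inclusion h)
  exact Algebra.finrank_eq_of_equiv_equiv (RingEquiv.refl A) (RingEquiv.refl B)
    (RingHom.ext fun _ => rfl)

/-- `[Γ₀(N) : Γ₀(Nℓ)]` for a prime `ℓ`. -/
def levelIndex (N ℓ : ℕ) : ℕ := if ℓ ∣ N then ℓ else ℓ + 1

theorem dedekindPsi_mul_prime {N ℓ : ℕ} [NeZero N] (hℓ : ℓ.Prime) :
    dedekindPsi (N * ℓ) = dedekindPsi N * levelIndex N ℓ := by
  obtain ⟨a, m, hm, rfl⟩ := Nat.exists_eq_pow_mul_and_not_dvd (NeZero.ne N) ℓ hℓ.ne_one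
  have hcop : ∀ k, (ℓ ^ k).Coprime m := fun k =>
    Nat.Coprime.pow_left k ((hℓ.coprime_iff_not_dvd).2 hm)
  rw [show ℓ ^ a * m * ℓ = ℓ ^ (a + 1) * m by ring, Gamma0.dedekindPsi_mul (hcop _),
    Gamma0.dedekindPsi_mul (hcop _), Gamma0.dedekindPsi_prime_pow hℓ]
  cases a with
  | zero =>
      rw [pow_zero, dedekindPsi_one, one_mul, one_mul, levelIndex,
        if_neg hm]
      ring
  | succ a =>
      rw [Gamma0.dedekindPsi_prime_pow hℓ, levelIndex,
        if_pos ((dvd_pow_self ℓ a.succ_ne_zero).mul_right m)]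
      ring

theorem dedekindPsi_pos (N : ℕ) [NeZero N] : 0 < dedekindPsi N := by
  refine Finset.sum_pos (fun d hd => ?_) ⟨1, by simp [NeZero.ne N, squarefree_one]⟩
  exact Nat.div_pos (Nat.divisor_le (Finset.mem_filter.1 hd).1)
    (Nat.pos_of_mem_divisors (Finset.mem_filter.1 hd).1)

variable (L : Type*) [Field L] [CharZero L] [Algebra ℚ L]
variable (N ℓ : ℕ) [NeZero N] [NeZero ℓ]

theorem adjoin_jqModC_le : L⟮jqModC L⟯ ≤ laurentBaseChange L (modularFunctionFieldFull N) := by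
  rw [ModFun.laurentBaseChange_full_eq, IntermediateField.adjoin_le_iff,
    Set.singleton_subset_iff]
  exact jqModC_mem L N

theorem dedekindPsi_mul_finrankAlong :
    dedekindPsi N * finrankAlong L (heckeAlphaBar L N ℓ) = dedekindPsi (N * ℓ) := by
  have h : laurentBaseChange L (modularFunctionFieldFull N) ≤
      laurentBaseChange L (modularFunctionFieldFull (N * ℓ)) := fun x hx =>
    (heckeAlphaBar L N ℓ ⟨x, hx⟩).2
  rw [heckeAlphaBar_eq_inclusion N ℓ h, finrankAlong_inclusion,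
    ← ModFun.relfinrank_modularFunctionFieldC L N,
    ← ModFun.relfinrank_modularFunctionFieldC L (N * ℓ),
    ← ModFun.laurentBaseChange_full_eq N L, ← ModFun.laurentBaseChange_full_eq (N * ℓ) L]
  exact IntermediateField.relfinrank_mul_relfinrank (adjoin_jqModC_le L N) h

variable {ℓ}

/-- The degree of `X₀(Nℓ) → X₀(N)` is `ℓ` or `ℓ + 1`. -/
theorem finrankAlong_heckeAlphaBar (hℓ : ℓ.Prime) :
    finrankAlong L (heckeAlphaBar L N ℓ) = levelIndex N ℓ :=
  Nat.eq_of_mul_eq_mul_left (dedekindPsi_pos N)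
    ((dedekindPsi_mul_finrankAlong L N ℓ).trans (dedekindPsi_mul_prime hℓ))

theorem finrankAlong_heckeAlphaBar_of_not_dvd (hℓ : ℓ.Prime) (hN : ¬ ℓ ∣ N) :
    finrankAlong L (heckeAlphaBar L N ℓ) = ℓ + 1 :=
  (finrankAlong_heckeAlphaBar L N hℓ).trans (if_neg hN)

theorem finrankAlong_heckeAlphaBar_of_dvd (hℓ : ℓ.Prime) (hN : ℓ ∣ N) :
    finrankAlong L (heckeAlphaBar L N ℓ) = ℓ :=
  (finrankAlong_heckeAlphaBar L N hℓ).trans (if_pos hN)

end Fermat.Agent.HeckeJ

end
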