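/-
Pullback and pushforward of divisors commute with intertwined semilinear automorphisms.
-/
import Fermat.Prelude.Def_AlgebraicCurve_Correspondence

set_option autoImplicit false
set_option linter.style.haveILetI false

noncomputable section

open scoped Pointwise

namespace Fermat.Agent.HeckeJ

open AlgebraicCurve AlgebraicCurve.SemilinearAut

variable {K F F' : Type*} [Field K] [Field F] [Field F'] [Algebra K F] [Algebra K F']
variable {φ : F →ₐ[K] F'} {g : SemilinearAut K F} {g' : SemilinearAut K F'}

theorem intertwines_inv_apply (h : IntertwinesAlong φ.toRingHom g g') (x : F) :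
    g'⁻¹ • φ x = φ (g⁻¹ • x) :=
  h.inv x

theorem restrictAlong_smul (hφ : φ.toRingHom.IsIntegral)
    (h : IntertwinesAlong φ.toRingHom g g') (w : Place K F') :
    (g' • w).restrictAlong φ hφ = g • w.restrictAlong φ hφ := by
  refine Place.ext (SetLike.ext fun x => ?_)
  show φ x ∈ (g' • w.toValuationSubring) ↔ x ∈ g • (w.restrictAlong φ hφ).toValuationSubring
  rw [ValuationSubring.mem_pointwise_smul_iff_inv_smul_mem,
    ValuationSubring.mem_pointwise_smul_iff_inv_smul_mem, intertwines_inv_apply h]
  rfl

theorem ramificationIndexAlong_smul (h : IntertwinesAlong φ.toRingHom g g') (w : Place K F') :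
    Place.ramificationIndexAlong φ (g' • w) = Place.ramificationIndexAlong φ w := by
  letI := algebraAlong φ
  show sInf {n : ℕ | 0 < n ∧ ∃ f : F, f ≠ 0 ∧ (g' • w).ord (φ f) = n} =
    sInf {n : ℕ | 0 < n ∧ ∃ f : F, f ≠ 0 ∧ w.ord (φ f) = n}
  congr 1
  ext n
  refine and_congr_right fun _ => ⟨?_, ?_⟩
  · rintro ⟨f, hf, hn⟩
    refine ⟨g⁻¹ • f, by simpa using hf, ?_⟩
    rw [← intertwines_inv_apply h, ← hn, ← SemilinearAut.ord_smul g' w (g'⁻¹ • φ f),
      smul_inv_smul]
  · rintro ⟨f, hf, hn⟩
    refine ⟨g • f, by simpa using hf, ?_⟩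
    have hx : φ (g • f) = g' • φ f := (h f).symm
    rw [hx, SemilinearAut.ord_smul, hn]

theorem inertiaDegAlong_smul (hφ : φ.toRingHom.IsIntegral)
    (h : IntertwinesAlong φ.toRingHom g g') (w : Place K F') :
    Place.inertiaDegAlong φ hφ (g' • w) = Place.inertiaDegAlong φ hφ w := by
  letI := algebraAlong φ
  haveI := isScalarTower_along φ
  haveI := isIntegral_along φ hφ
  have hmem : ∀ x : F, x ∈ (w.restrict F).toValuationSubring ↔
      g • x ∈ ((g' • w).restrict F).toValuationSubring := fun x => by
    show φ x ∈ w.toValuationSubring ↔ φ (g • x) ∈ g' • w.toValuationSubring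
    have hx : φ (g • x) = g' • φ x := (h x).symm
    rw [hx, ValuationSubring.smul_mem_pointwise_smul_iff]
  let e : (w.restrict F).toValuationSubring ≃+* ((g' • w).restrict F).toValuationSubring :=
    RingEquiv.restrict (toRingAut g) (w.restrict F).toValuationSubring
      ((g' • w).restrict F).toValuationSubring hmem
  refine (Algebra.finrank_eq_of_equiv_equiv (IsLocalRing.ResidueField.mapEquiv e)
    (smulResidueRingEquiv g' w) (RingHom.ext fun a => ?_)).symm
  obtain ⟨a, rfl⟩ := IsLocalRing.residue_surjective a
  show Place.restrictResidueMap F (g' • w)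
      (IsLocalRing.ResidueField.mapEquiv e (IsLocalRing.residue _ a)) =
    smulResidueRingEquiv g' w (Place.restrictResidueMap F w (IsLocalRing.residue _ a))
  rw [IsLocalRing.ResidueField.mapEquiv_apply, IsLocalRing.ResidueField.map_residue,
    Place.restrictResidueMap_residue, Place.restrictResidueMap_residue, smulResidueRingEquiv,
    IsLocalRing.ResidueField.mapEquiv_apply, IsLocalRing.ResidueField.map_residue]
  refine congrArg _ (Subtype.ext ?_)
  exact (h (a : F)).symm

theorem pullbackAlong_smul [HasPrincipalDivisors K F'] (hφ : φ.toRingHom.IsIntegral)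
    (h : IntertwinesAlong φ.toRingHom g g') (D : Divisor K F) :
    Divisor.pullbackAlong φ hφ (g • D) = g' • Divisor.pullbackAlong φ hφ D := by
  refine Finsupp.ext fun w => ?_
  rw [Divisor.pullbackAlong_apply, divisor_smul_apply, divisor_smul_apply,
    Divisor.pullbackAlong_apply, restrictAlong_smul hφ h.inv,
    ramificationIndexAlong_smul h.inv]

theorem pushforwardAlong_smul (hφ : φ.toRingHom.IsIntegral)
    (h : IntertwinesAlong φ.toRingHom g g') (D : Divisor K F') :
    Divisor.pushforwardAlong φ hφ (g' • D) = g • Divisor.pushforwardAlong φ hφ D := by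
  induction D using Finsupp.induction with
  | zero => simp only [smul_zero, map_zero]
  | single_add w n D _ _ ih =>
    rw [smul_add, map_add, map_add, smul_add, ih, smul_single,
      Divisor.pushforwardAlong_single, Divisor.pushforwardAlong_single, smul_single,
      restrictAlong_smul hφ h, inertiaDegAlong_smul hφ h]

theorem correspondence_smul [HasPrincipalDivisors K F'] {ψ : F →ₐ[K] F'}
    (hφ : φ.toRingHom.IsIntegral) (hψ : ψ.toRingHom.IsIntegral)
    (h : IntertwinesAlong φ.toRingHom g g') (h' : IntertwinesAlong ψ.toRingHom g g')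
    (D : Divisor K F) :
    Divisor.correspondence φ ψ hφ hψ (g • D) = g • Divisor.correspondence φ ψ hφ hψ D := by
  rw [Divisor.correspondence_apply, Divisor.correspondence_apply, pullbackAlong_smul hφ h,
    pushforwardAlong_smul hψ h']

end Fermat.Agent.HeckeJ

end
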