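/-
The Hecke operator on `Pic⁰` in terms of divisors, and its Galois equivariance.
-/
import Fermat.Agent.HeckeJ.Inputs
import Fermat.Agent.HeckeJ.Semilinear
import Fermat.Prelude.Def_ModularCurve_HeckeModule
import Fermat.Prelude.Thm_ModularCurve_coeffMap_qExpand

set_option autoImplicit false
set_option linter.style.haveILetI false

noncomputable section

namespace Fermat.Agent.HeckeJ

open AlgebraicCurve ModularCurve

universe u

variable (L : Type u) [Field L] [Algebra ℚ L]
variable (N ℓ : ℕ) [NeZero N] [NeZero ℓ]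

/-- `α_* ∘ β^*` on divisors. -/
def heckeDiv :
    Divisor L (laurentBaseChange L (modularFunctionFieldFull N)) →+
      Divisor L (laurentBaseChange L (modularFunctionFieldFull N)) :=
  haveI := hasPrincipalDivisors_laurentBaseChange L (N * ℓ)
  heckeDivBar (heckeAlphaBarIntegral L N ℓ) (heckeBetaBarIntegral L N ℓ)

theorem heckeDiv_eq
    [HasPrincipalDivisors L (laurentBaseChange L (modularFunctionFieldFull (N * ℓ)))]
    (D : Divisor L (laurentBaseChange L (modularFunctionFieldFull N))) :
    heckeDiv L N ℓ D = Divisor.pushforwardAlong (heckeAlphaBar L N ℓ)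
      (heckeAlphaBarIntegral L N ℓ)
      (Divisor.pullbackAlong (heckeBetaBar L N ℓ) (heckeBetaBarIntegral L N ℓ) D) :=
  rfl

theorem heckeDiv_mem_degZero
    {D : Divisor L (laurentBaseChange L (modularFunctionFieldFull N))}
    (hD : D ∈ Divisor.degZero) : heckeDiv L N ℓ D ∈ Divisor.degZero :=
  haveI := hasPrincipalDivisors_laurentBaseChange L (N * ℓ)
  Divisor.correspondence_mem_degZero _ _ _ _ (fundamentalIdentityAlong_heckeBetaBar L N ℓ) hD

theorem heckeDiv_mem_principal
    {D : Divisor L (laurentBaseChange L (modularFunctionFieldFull N))}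
    (hD : D ∈ Divisor.principal) : heckeDiv L N ℓ D ∈ Divisor.principal :=
  haveI := hasPrincipalDivisors_laurentBaseChange L (N * ℓ)
  Divisor.correspondence_mem_principal _ _ _ _ (finiteAlong_heckeAlphaBar L N ℓ)
    (normFormulaAlong_heckeAlphaBar L N ℓ) hD

/-- The Hecke operator is `α_* ∘ β^*` on divisor classes. -/
theorem heckeOperatorAlong_mk
    (D : Divisor.degZero (K := L) (F := laurentBaseChange L (modularFunctionFieldFull N))) :
    heckeOperatorAlong L N ℓ (Pic0.mk D) =
      Pic0.mk ⟨heckeDiv L N ℓ D, heckeDiv_mem_degZero L N ℓ D.2⟩ := by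
  haveI := hasPrincipalDivisors_laurentBaseChange L (N * ℓ)
  rw [heckeOperatorAlong_eq (heckeAlphaBarIntegral L N ℓ) (heckeBetaBarIntegral L N ℓ)
    (fundamentalIdentityAlong_heckeBetaBar L N ℓ) (finiteAlong_heckeAlphaBar L N ℓ)
    (normFormulaAlong_heckeAlphaBar L N ℓ)]
  rfl

theorem heckeOperatorBar_mk (ℓ : Nat.Primes)
    (D : Divisor.degZero (K := AlgebraicClosure ℚ) (F := modularFunctionFieldBar N)) :
    heckeOperatorBar N ℓ (Pic0.mk D) =
      (haveI : NeZero (ℓ : ℕ) := ⟨ℓ.2.ne_zero⟩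
      Pic0.mk ⟨heckeDiv (AlgebraicClosure ℚ) N ℓ D,
        heckeDiv_mem_degZero (AlgebraicClosure ℚ) N ℓ D.2⟩) := by
  haveI : NeZero (ℓ : ℕ) := ⟨ℓ.2.ne_zero⟩
  rw [heckeOperatorBar_apply]
  exact heckeOperatorAlong_mk (AlgebraicClosure ℚ) N ℓ D

theorem heckeAlphaBar_galois_smul (σ : L ≃ₐ[ℚ] L)
    (x : laurentBaseChange L (modularFunctionFieldFull N)) :
    arithmeticGalois (modularFunctionFieldFull (N * ℓ)) σ • heckeAlphaBar L N ℓ x =
      heckeAlphaBar L N ℓ (arithmeticGalois (modularFunctionFieldFull N) σ • x) :=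
  Subtype.ext (by
    rw [coe_arithmeticGalois_smul, coe_heckeAlphaBar, coe_heckeAlphaBar,
      coe_arithmeticGalois_smul])

theorem heckeBetaBar_galois_smul (σ : L ≃ₐ[ℚ] L)
    (x : laurentBaseChange L (modularFunctionFieldFull N)) :
    arithmeticGalois (modularFunctionFieldFull (N * ℓ)) σ • heckeBetaBar L N ℓ x =
      heckeBetaBar L N ℓ (arithmeticGalois (modularFunctionFieldFull N) σ • x) :=
  Subtype.ext (by
    rw [coe_arithmeticGalois_smul, coe_heckeBetaBar, coe_heckeBetaBar,
      coe_arithmeticGalois_smul, ModularCurve.coeffMap_qExpand])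

theorem intertwinesAlong_heckeAlphaBar (σ : L ≃ₐ[ℚ] L) :
    SemilinearAut.IntertwinesAlong (heckeAlphaBar L N ℓ).toRingHom
      (arithmeticGalois (modularFunctionFieldFull N) σ)
      (arithmeticGalois (modularFunctionFieldFull (N * ℓ)) σ) :=
  heckeAlphaBar_galois_smul L N ℓ σ

theorem intertwinesAlong_heckeBetaBar (σ : L ≃ₐ[ℚ] L) :
    SemilinearAut.IntertwinesAlong (heckeBetaBar L N ℓ).toRingHom
      (arithmeticGalois (modularFunctionFieldFull N) σ)
      (arithmeticGalois (modularFunctionFieldFull (N * ℓ)) σ) :=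
  heckeBetaBar_galois_smul L N ℓ σ

theorem heckeDiv_galois_smul (σ : L ≃ₐ[ℚ] L)
    (D : Divisor L (laurentBaseChange L (modularFunctionFieldFull N))) :
    heckeDiv L N ℓ (arithmeticGalois (modularFunctionFieldFull N) σ • D) =
      arithmeticGalois (modularFunctionFieldFull N) σ • heckeDiv L N ℓ D := by
  haveI := hasPrincipalDivisors_laurentBaseChange L (N * ℓ)
  unfold heckeDiv heckeDivBar
  exact correspondence_smul (φ := heckeBetaBar L N ℓ) (ψ := heckeAlphaBar L N ℓ)
    (g := arithmeticGalois (modularFunctionFieldFull N) σ)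
    (g' := arithmeticGalois (modularFunctionFieldFull (N * ℓ)) σ)
    (heckeBetaBarIntegral L N ℓ) (heckeAlphaBarIntegral L N ℓ)
    (intertwinesAlong_heckeBetaBar L N ℓ σ) (intertwinesAlong_heckeAlphaBar L N ℓ σ) D

theorem heckeOperatorAlong_galois_smul (σ : L ≃ₐ[ℚ] L)
    (x : Pic0 L (laurentBaseChange L (modularFunctionFieldFull N))) :
    heckeOperatorAlong L N ℓ (σ • x) = σ • heckeOperatorAlong L N ℓ x := by
  obtain ⟨D, rfl⟩ := Pic0.mk_surjective x
  rw [galois_smul_pic0_def, galois_smul_pic0_def, SemilinearAut.pic0_smul_mk,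
    heckeOperatorAlong_mk, heckeOperatorAlong_mk, SemilinearAut.pic0_smul_mk]
  exact congrArg Pic0.mk (Subtype.ext (heckeDiv_galois_smul L N ℓ σ D))

theorem heckeOperatorBar_galois_smul (ℓ : Nat.Primes)
    (σ : AlgebraicClosure ℚ ≃ₐ[ℚ] AlgebraicClosure ℚ) (x : JZero N) :
    heckeOperatorBar N ℓ (σ • x) = σ • heckeOperatorBar N ℓ x := by
  haveI : NeZero (ℓ : ℕ) := ⟨ℓ.2.ne_zero⟩
  rw [heckeOperatorBar_apply, heckeOperatorBar_apply]
  exact heckeOperatorAlong_galois_smul (AlgebraicClosure ℚ) N ℓ σ x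

theorem galois_smul_hecke_smul (σ : AlgebraicClosure ℚ ≃ₐ[ℚ] AlgebraicClosure ℚ) (t : HeckeAlg)
    (x : JZero N) :
    (letI := heckeModuleBar N; σ • (t • x) = t • (σ • x)) := by
  letI := heckeModuleBar N
  by_cases h : HeckeOperatorsCommuteBar N
  · induction t using MvPolynomial.induction_on generalizing x with
    | C a =>
        rw [heckeModuleBar_C_smul, heckeModuleBar_C_smul]
        exact map_zsmul (DistribSMul.toAddMonoidHom (JZero N) σ) a x
    | add p q hp hq => simp only [add_smul, smul_add, hp, hq]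
    | mul_X p ℓ hp =>
        rw [mul_smul, mul_smul, hp]
        congr 1
        show σ • (heckeGen ℓ • x) = heckeGen ℓ • (σ • x)
        rw [heckeModuleBar_heckeGen_smul h, heckeModuleBar_heckeGen_smul h,
          heckeOperatorBar_galois_smul]
  · rw [heckeModuleBar_smul_of_not h, heckeModuleBar_smul_of_not h]
    exact map_zsmul (DistribSMul.toAddMonoidHom (JZero N) σ) (MvPolynomial.constantCoeff t) x

/-- Galois commutes with the Hecke module structure (whether or not the operators commute). -/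
theorem smulCommClass_galois_hecke :
    letI := heckeModuleBar N
    SMulCommClass (AlgebraicClosure ℚ ≃ₐ[ℚ] AlgebraicClosure ℚ) HeckeAlg (JZero N) := by
  letI := heckeModuleBar N
  exact ⟨galois_smul_hecke_smul N⟩

end Fermat.Agent.HeckeJ

end
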