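/-
Products over the cosets of `Γ₀(M)` in `Γ₀(N)`: transitivity and compatibility with `τ ↦ d τ`.
-/
import Fermat.Agent.HeckeJ.Degree

set_option autoImplicit false
set_option linter.style.haveILetI false

noncomputable section

namespace Fermat.Agent.HeckeJ

open CongruenceSubgroup UpperHalfPlane ModularCurve
open scoped MatrixGroups

/-- `τ ↦ d τ`. -/
abbrev scale (d : ℕ) [NeZero d] (τ : ℍ) : ℍ := ModFun.triPoint d 0 1 τ

theorem coe_scale (d : ℕ) [NeZero d] (τ : ℍ) : ((scale d τ : ℍ) : ℂ) = (d : ℂ) * (τ : ℂ) := by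
  show ((d : ℂ) * τ + (0 : ℕ)) / (1 : ℕ) = (d : ℂ) * (τ : ℂ)
  simp

theorem scale_scale (d e : ℕ) [NeZero d] [NeZero e] (τ : ℍ) :
    scale d (scale e τ) = scale (d * e) τ := by
  apply UpperHalfPlane.ext
  rw [coe_scale, coe_scale, coe_scale]
  push_cast
  ring

theorem scale_congr {d e : ℕ} [NeZero d] [NeZero e] (h : d = e) (τ : ℍ) :
    scale d τ = scale e τ := by
  subst h; rfl

theorem Gamma0_le_of_dvd {N M : ℕ} (h : N ∣ M) : Gamma0 M ≤ Gamma0 N := fun g hg => by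
  rw [Gamma0_mem, ZMod.intCast_zmod_eq_zero_iff_dvd] at hg ⊢
  exact (Int.natCast_dvd_natCast.mpr h).trans hg

/-- `Γ₀(N) ⧸ Γ₀(M)`. -/
abbrev RelCoset (N M : ℕ) : Type := Gamma0 N ⧸ (Gamma0 M).subgroupOf (Gamma0 N)

instance instFintypeRelCoset (N M : ℕ) [NeZero M] : Fintype (RelCoset N M) :=
  Fintype.ofFinite _

theorem index_Gamma0 (N : ℕ) [NeZero N] : (Gamma0 N).index = dedekindPsi N :=
  ModFun.card_quotient_Gamma0_eq N

theorem dedekindPsi_mul_card_relCoset {N M : ℕ} [NeZero N] [NeZero M] (h : N ∣ M) :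
    dedekindPsi N * Fintype.card (RelCoset N M) = dedekindPsi M := by
  rw [← index_Gamma0 N, ← index_Gamma0 M, ← Nat.card_eq_fintype_card, mul_comm]
  exact Subgroup.relIndex_mul_index (Gamma0_le_of_dvd h)

theorem card_relCoset {N ℓ : ℕ} [NeZero N] [NeZero ℓ] (hℓ : ℓ.Prime) :
    Fintype.card (RelCoset N (N * ℓ)) = levelIndex N ℓ :=
  Nat.eq_of_mul_eq_mul_left (dedekindPsi_pos N)
    ((dedekindPsi_mul_card_relCoset (dvd_mul_right N ℓ)).trans (dedekindPsi_mul_prime hℓ))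

/-- The product of the translates of `F` over `Γ₀(N) ⧸ Γ₀(M)`. -/
def cosetProd (N M : ℕ) [NeZero M] (F : ℍ → ℂ) (τ : ℍ) : ℂ :=
  ∏ q : RelCoset N M, F (((Quotient.out q : Gamma0 N) : SL(2, ℤ))⁻¹ • τ)

theorem relCoset_eval {N M : ℕ} {F : ℍ → ℂ}
    (hF : ∀ γ ∈ Gamma0 M, ∀ τ, F (γ • τ) = F τ) (g : Gamma0 N) (τ : ℍ) :
    F (((Quotient.out (QuotientGroup.mk g : RelCoset N M) : Gamma0 N) : SL(2, ℤ))⁻¹ • τ) =
      F ((g : SL(2, ℤ))⁻¹ • τ) := by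
  obtain ⟨c, hc⟩ := QuotientGroup.mk_out_eq_mul ((Gamma0 M).subgroupOf (Gamma0 N)) g
  rw [hc, Subgroup.coe_mul, mul_inv_rev, mul_smul]
  exact hF _ (inv_mem (Subgroup.mem_subgroupOf.1 c.2)) _

theorem relCoset_mk_eq_iff {N M : ℕ} {g g' : Gamma0 N} :
    (QuotientGroup.mk g : RelCoset N M) = QuotientGroup.mk g' ↔
      (g : SL(2, ℤ))⁻¹ * (g' : SL(2, ℤ)) ∈ Gamma0 M := by
  rw [QuotientGroup.eq, Subgroup.mem_subgroupOf]
  simp

/-- Any family which meets every coset once computes the product. -/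
theorem cosetProd_eq_prod {N M : ℕ} [NeZero M] {F : ℍ → ℂ}
    (hF : ∀ γ ∈ Gamma0 M, ∀ τ, F (γ • τ) = F τ) {κ : Type*} [Fintype κ] (g : κ → Gamma0 N)
    (hg : Function.Bijective fun i => (QuotientGroup.mk (g i) : RelCoset N M)) (τ : ℍ) :
    cosetProd N M F τ = ∏ i, F ((g i : SL(2, ℤ))⁻¹ • τ) :=
  (Fintype.prod_bijective _ hg _ _ fun i => (relCoset_eval hF (g i) τ).symm).symm

theorem cosetProd_cosetProd {N M M' : ℕ} [NeZero M] [NeZero M'] (hNM : N ∣ M) (hMM : M ∣ M')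
    {F : ℍ → ℂ} (hF : ∀ γ ∈ Gamma0 M', ∀ τ, F (γ • τ) = F τ) (τ : ℍ) :
    cosetProd N M (cosetProd M M' F) τ = cosetProd N M' F τ := by
  let g : RelCoset N M × RelCoset M M' → Gamma0 N := fun p =>
    Quotient.out p.1 * ⟨((Quotient.out p.2 : Gamma0 M) : SL(2, ℤ)),
      Gamma0_le_of_dvd hNM (Quotient.out p.2).2⟩
  have hg : Function.Bijective fun p => (QuotientGroup.mk (g p) : RelCoset N M') := by
    constructor
    · rintro ⟨a, b⟩ ⟨a', b'⟩ h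
      rw [relCoset_mk_eq_iff] at h
      have h' := Gamma0_le_of_dvd hMM h
      simp only [g, Subgroup.coe_mul, mul_inv_rev] at h h'
      have hb := (Quotient.out b : Gamma0 M).2
      have hb' := (Quotient.out b' : Gamma0 M).2
      have ha : a = a' := by
        rw [← QuotientGroup.out_eq' a, ← QuotientGroup.out_eq' a', relCoset_mk_eq_iff]
        have := mul_mem (mul_mem hb h') (inv_mem hb')
        simpa [mul_assoc] using this
      subst ha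
      refine Prod.ext rfl ?_
      rw [← QuotientGroup.out_eq' b, ← QuotientGroup.out_eq' b', relCoset_mk_eq_iff]
      simpa [mul_assoc] using h
    · intro x
      induction x using QuotientGroup.induction_on with
      | H γ =>
        set a : RelCoset N M := QuotientGroup.mk γ with ha
        have hm : ((Quotient.out a : Gamma0 N) : SL(2, ℤ))⁻¹ * (γ : SL(2, ℤ)) ∈ Gamma0 M :=
          relCoset_mk_eq_iff.1 (QuotientGroup.out_eq' a)
        set b : RelCoset M M' := QuotientGroup.mk ⟨_, hm⟩ with hb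
        refine ⟨(a, b), ?_⟩
        have hm' := relCoset_mk_eq_iff.1 (QuotientGroup.out_eq' b)
        rw [relCoset_mk_eq_iff]
        simpa [g, mul_assoc] using hm'
  rw [cosetProd_eq_prod hF g hg τ, Fintype.prod_prod_type]
  simp only [cosetProd, g, Subgroup.coe_mul, mul_inv_rev, mul_smul]

theorem dvd_lowerLeft {N : ℕ} (m : ℕ) (g : Gamma0 (N * m)) :
    (m : ℤ) ∣ (g : SL(2, ℤ)) 1 0 :=
  (Int.natCast_dvd_natCast.mpr (dvd_mul_left m N)).trans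
    ((ZMod.intCast_zmod_eq_zero_iff_dvd _ _).1 (Gamma0_mem.1 g.2))

theorem dvd_lowerLeft_div {N : ℕ} (m : ℕ) [NeZero m] (g : Gamma0 (N * m)) :
    (N : ℤ) ∣ (g : SL(2, ℤ)) 1 0 / (m : ℤ) := by
  obtain ⟨k, hk⟩ := (ZMod.intCast_zmod_eq_zero_iff_dvd _ _).1 (Gamma0_mem.1 g.2)
  refine ⟨k, ?_⟩
  rw [hk, Nat.cast_mul, mul_comm (N : ℤ) (m : ℤ), mul_assoc,
    Int.mul_ediv_cancel_left _ (Int.natCast_ne_zero.2 (NeZero.ne m))]

/-- The matrix `diag (m, 1) g diag (m, 1)⁻¹`. -/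
def conjScaleSL {N : ℕ} (m : ℕ) [NeZero m] (g : Gamma0 (N * m)) : SL(2, ℤ) :=
  ⟨!![(g : SL(2, ℤ)) 0 0, (m : ℤ) * (g : SL(2, ℤ)) 0 1;
      (g : SL(2, ℤ)) 1 0 / (m : ℤ), (g : SL(2, ℤ)) 1 1], by
    have hd := (g : SL(2, ℤ)).det_coe
    rw [Matrix.det_fin_two] at hd
    rw [Matrix.det_fin_two_of]
    linear_combination hd - (g : SL(2, ℤ)) 0 1 * Int.mul_ediv_cancel' (dvd_lowerLeft m g)⟩

section Entries

variable {N : ℕ} (m : ℕ) [NeZero m] (g : Gamma0 (N * m))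

@[simp] theorem conjScaleSL_00 : conjScaleSL m g 0 0 = (g : SL(2, ℤ)) 0 0 := rfl

@[simp] theorem conjScaleSL_01 : conjScaleSL m g 0 1 = (m : ℤ) * (g : SL(2, ℤ)) 0 1 := rfl

@[simp] theorem conjScaleSL_10 : conjScaleSL m g 1 0 = (g : SL(2, ℤ)) 1 0 / (m : ℤ) := rfl

@[simp] theorem conjScaleSL_11 : conjScaleSL m g 1 1 = (g : SL(2, ℤ)) 1 1 := rfl

theorem conjScaleSL_mem : conjScaleSL m g ∈ Gamma0 N := by
  rw [Gamma0_mem, ZMod.intCast_zmod_eq_zero_iff_dvd]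
  exact dvd_lowerLeft_div m g

end Entries

/-- Conjugation by `diag (m, 1)` from `Γ₀(N m)` to `Γ₀(N)`. -/
def conjScale {N : ℕ} (m : ℕ) [NeZero m] (g : Gamma0 (N * m)) : Gamma0 N :=
  ⟨conjScaleSL m g, conjScaleSL_mem m g⟩

theorem scale_smul {N : ℕ} (m : ℕ) [NeZero m] (g : Gamma0 (N * m)) (τ : ℍ) :
    scale m ((g : SL(2, ℤ)) • τ) = (conjScale m g : SL(2, ℤ)) • scale m τ := by
  apply UpperHalfPlane.ext
  rw [coe_scale, coe_specialLinearGroup_apply, coe_specialLinearGroup_apply, coe_scale]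
  obtain ⟨k, hk⟩ := dvd_lowerLeft m g
  simp only [conjScale, conjScaleSL_00, conjScaleSL_01, conjScaleSL_10, conjScaleSL_11, hk,
    Int.mul_ediv_cancel_left _ (Int.natCast_ne_zero.2 (NeZero.ne m)), algebraMap_int_eq,
    eq_intCast, Complex.ofReal_intCast]
  push_cast
  ring

theorem SL_inv_entries (g : SL(2, ℤ)) :
    g⁻¹ 0 0 = g 1 1 ∧ g⁻¹ 0 1 = -g 0 1 ∧ g⁻¹ 1 0 = -g 1 0 ∧ g⁻¹ 1 1 = g 0 0 := by
  rw [Matrix.SpecialLinearGroup.SL2_inv_expl]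
  exact ⟨rfl, rfl, rfl, rfl⟩

theorem SL_inv_mul_lowerLeft (g g' : SL(2, ℤ)) :
    (g⁻¹ * g') 1 0 = -g 1 0 * g' 0 0 + g 0 0 * g' 1 0 := by
  obtain ⟨-, -, h3, h4⟩ := SL_inv_entries g
  rw [Matrix.SpecialLinearGroup.coe_mul, Matrix.mul_apply, Fin.sum_univ_two, h3, h4]

theorem conjScale_inv {N : ℕ} (m : ℕ) [NeZero m] (g : Gamma0 (N * m)) :
    conjScale m g⁻¹ = (conjScale m g)⁻¹ := by
  apply Subtype.ext
  rw [Subgroup.coe_inv]
  show conjScaleSL m g⁻¹ = (conjScaleSL m g)⁻¹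
  obtain ⟨a1, a2, a3, a4⟩ := SL_inv_entries (conjScaleSL m g)
  obtain ⟨b1, b2, b3, b4⟩ := SL_inv_entries (g : SL(2, ℤ))
  ext i j
  fin_cases i <;> fin_cases j <;>
    simp only [Fin.mk_one, Fin.zero_eta, Fin.isValue, a1, a2, a3, a4, b1, b2, b3, b4,
      conjScaleSL_00, conjScaleSL_01, conjScaleSL_10, conjScaleSL_11, Subgroup.coe_inv,
      Int.neg_ediv_of_dvd (dvd_lowerLeft m g), mul_neg]

theorem conjScale_inv_mul_mem_iff {N ℓ : ℕ} (m : ℕ) [NeZero m] [NeZero ℓ]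
    (g g' : Gamma0 (N * m)) :
    (conjScale m g : SL(2, ℤ))⁻¹ * (conjScale m g' : SL(2, ℤ)) ∈ Gamma0 (N * ℓ) ↔
      (g : SL(2, ℤ))⁻¹ * (g' : SL(2, ℤ)) ∈ Gamma0 (N * ℓ * m) := by
  obtain ⟨k, hk⟩ := dvd_lowerLeft m g
  obtain ⟨k', hk'⟩ := dvd_lowerLeft m g'
  have hm : (m : ℤ) ≠ 0 := Int.natCast_ne_zero.2 (NeZero.ne m)
  rw [Gamma0_mem, Gamma0_mem, ZMod.intCast_zmod_eq_zero_iff_dvd,
    ZMod.intCast_zmod_eq_zero_iff_dvd, SL_inv_mul_lowerLeft, SL_inv_mul_lowerLeft]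
  simp only [conjScale, conjScaleSL_00, conjScaleSL_10, hk, hk',
    Int.mul_ediv_cancel_left _ hm]
  rw [Nat.cast_mul (N * ℓ) m, mul_comm ((N * ℓ : ℕ) : ℤ) (m : ℤ),
    show -((m : ℤ) * k) * (g' : SL(2, ℤ)) 0 0 + (g : SL(2, ℤ)) 0 0 * ((m : ℤ) * k') =
      (m : ℤ) * (-k * (g' : SL(2, ℤ)) 0 0 + (g : SL(2, ℤ)) 0 0 * k') by ring,
    mul_dvd_mul_iff_left hm]

theorem levelIndex_mul {N ℓ m : ℕ} (hℓ : ℓ.Prime) (hm : m.Prime) (hne : ℓ ≠ m) :
    levelIndex (N * m) ℓ = levelIndex N ℓ := by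
  have : ℓ ∣ N * m ↔ ℓ ∣ N := by
    rw [hℓ.dvd_mul, Nat.prime_dvd_prime_iff_eq hℓ hm, or_iff_left hne]
  unfold levelIndex
  by_cases h : ℓ ∣ N
  · rw [if_pos h, if_pos (this.2 h)]
  · rw [if_neg h, if_neg (mt this.1 h)]

/-- Moving `τ ↦ m τ` through the product for `ℓ`. -/
theorem cosetProd_scale {N ℓ m : ℕ} [NeZero N] [NeZero ℓ] [NeZero m] (hℓ : ℓ.Prime)
    (hm : m.Prime) (hne : ℓ ≠ m) {F : ℍ → ℂ}
    (hF : ∀ γ ∈ Gamma0 (N * ℓ), ∀ τ, F (γ • τ) = F τ) (τ : ℍ) :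
    cosetProd N (N * ℓ) F (scale m τ) =
      cosetProd (N * m) (N * ℓ * m) (fun z => F (scale m z)) τ := by
  let g : RelCoset (N * m) (N * ℓ * m) → Gamma0 N := fun q => conjScale m (Quotient.out q)
  have hinj : Function.Injective fun q => (QuotientGroup.mk (g q) : RelCoset N (N * ℓ)) := by
    intro a b h
    rw [relCoset_mk_eq_iff, conjScale_inv_mul_mem_iff] at h
    rw [← QuotientGroup.out_eq' a, ← QuotientGroup.out_eq' b, relCoset_mk_eq_iff]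
    exact h
  have hcard : Fintype.card (RelCoset (N * m) (N * ℓ * m)) = Fintype.card (RelCoset N (N * ℓ)) := by
    refine Nat.eq_of_mul_eq_mul_left (dedekindPsi_pos (N * m)) ?_
    rw [dedekindPsi_mul_card_relCoset (mul_dvd_mul (dvd_mul_right N ℓ) dvd_rfl),
      card_relCoset hℓ, mul_right_comm N ℓ m, dedekindPsi_mul_prime hℓ, levelIndex_mul hℓ hm hne]
  have hg := (Fintype.bijective_iff_injective_and_card _).2 ⟨hinj, hcard⟩
  rw [cosetProd_eq_prod hF g hg]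
  refine Finset.prod_congr rfl fun q _ => ?_
  show F _ = F _
  congr 1
  rw [← Subgroup.coe_inv, ← Subgroup.coe_inv, ← conjScale_inv, ← scale_smul]

end Fermat.Agent.HeckeJ

end
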