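/-
Auxiliary facts on equality of meromorphic functions on the upper half plane and their
expansions.
-/
import Fermat.Agent.HeckeJ.Cosets
import Mathlib.Analysis.Complex.UpperHalfPlane.Manifold

set_option autoImplicit false

noncomputable section

namespace Fermat.Agent.HeckeJ

open Filter UpperHalfPlane Complex
open Fermat.Agent.ModFun (EqPunct MeroH ordH HasQExp)
open scoped Topology Manifold MatrixGroups

theorem continuous_scale (d : ℕ) [NeZero d] : Continuous (scale d) := by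
  rw [UpperHalfPlane.isOpenEmbedding_coe.isInducing.continuous_iff]
  show Continuous fun τ : ℍ => ((scale d τ : ℍ) : ℂ)
  simp only [coe_scale]
  fun_prop

theorem injective_scale (d : ℕ) [NeZero d] : Function.Injective (scale d) := fun a b h => by
  have h' := congrArg (fun τ : ℍ => (τ : ℂ)) h
  simp only [coe_scale] at h'
  exact UpperHalfPlane.ext (mul_left_cancel₀ (Nat.cast_ne_zero.2 (NeZero.ne d)) h')

theorem mdifferentiable_scale (d : ℕ) [NeZero d] :
    MDiff (fun τ : ℍ => ((scale d τ : ℍ) : ℂ)) := by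
  simp only [coe_scale]
  rw [mdifferentiable_iff]
  refine DifferentiableOn.congr (f := fun z : ℂ => (d : ℂ) * z)
    (differentiableOn_id.const_mul _) fun z hz => ?_
  simp [ofComplex_apply_of_im_pos hz]

theorem mdifferentiable_coe_smul (g : SL(2, ℤ)) :
    MDiff (fun τ : ℍ => ((g • τ : ℍ) : ℂ)) :=
  mdifferentiable_coe.comp (mdifferentiable_smul (by simp))

theorem eventually_coe_ofComplex (τ : ℍ) :
    ∀ᶠ z in 𝓝 (τ : ℂ), ((ofComplex z : ℍ) : ℂ) = z := by
  filter_upwards [isOpen_upperHalfPlaneSet.mem_nhds τ.im_pos] with z hz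
  simp [ofComplex_apply_of_im_pos hz]

theorem analyticAt_of_mdifferentiable {f : ℍ → ℂ} (hf : MDiff f) (τ : ℍ) :
    AnalyticAt ℂ (f ∘ ofComplex) (τ : ℂ) :=
  (UpperHalfPlane.mdifferentiable_iff.1 hf).analyticAt (isOpen_upperHalfPlaneSet.mem_nhds τ.im_pos)

theorem eqPunct_comp {f g : ℍ → ℂ} (h : EqPunct f g) {φ : ℍ → ℍ} (hc : Continuous φ)
    (hi : Function.Injective φ) : EqPunct (fun τ => f (φ τ)) (fun τ => g (φ τ)) := by
  intro τ
  let Φ : ℂ → ℂ := fun z => ((φ (ofComplex z) : ℍ) : ℂ)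
  have hΦc : ContinuousAt Φ (τ : ℂ) :=
    (UpperHalfPlane.continuous_coe.comp hc).continuousAt.comp
      (contMDiffAt_ofComplex (n := 0) τ.im_pos).continuousAt
  have hΦτ : Φ (τ : ℂ) = ((φ τ : ℍ) : ℂ) := by simp [Φ, ofComplex_apply]
  have ht : Tendsto Φ (𝓝[≠] (τ : ℂ)) (𝓝[≠] ((φ τ : ℍ) : ℂ)) := by
    refine tendsto_nhdsWithin_iff.2 ⟨?_, ?_⟩
    · rw [← hΦτ]
      exact hΦc.tendsto.mono_left nhdsWithin_le_nhds
    · filter_upwards [self_mem_nhdsWithin, nhdsWithin_le_nhds (eventually_coe_ofComplex τ)]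
        with z hz hz' heq
      have h1 : φ (ofComplex z) = φ τ := UpperHalfPlane.ext heq
      refine hz ?_
      show z = (τ : ℂ)
      rw [← hz', hi h1]
  filter_upwards [ht.eventually (h (φ τ))] with z hz
  simpa [Φ, ofComplex_apply] using hz

theorem eqPunct_comp_smul {f g : ℍ → ℂ} (h : EqPunct f g) (a : SL(2, ℤ)) :
    EqPunct (fun τ => f (a • τ)) (fun τ => g (a • τ)) :=
  eqPunct_comp h (UpperHalfPlane.isOpenEmbedding_coe.isInducing.continuous_iff.2
    (mdifferentiable_coe_smul a).continuous) (MulAction.injective a)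

theorem eqPunct_comp_scale {f g : ℍ → ℂ} (h : EqPunct f g) (d : ℕ) [NeZero d] :
    EqPunct (fun τ => f (scale d τ)) (fun τ => g (scale d τ)) :=
  eqPunct_comp h (continuous_scale d) (injective_scale d)

theorem eqPunct_mul {f g f' g' : ℍ → ℂ} (h : EqPunct f g) (h' : EqPunct f' g') :
    EqPunct (f * f') (g * g') :=
  fun τ => (h τ).mul (h' τ)

theorem eqPunct_prod {κ : Type*} (s : Finset κ) {f g : κ → ℍ → ℂ}
    (h : ∀ i ∈ s, EqPunct (f i) (g i)) :
    EqPunct (fun τ => ∏ i ∈ s, f i τ) (fun τ => ∏ i ∈ s, g i τ) := by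
  classical
  induction s using Finset.induction_on with
  | empty =>
      simp only [Finset.prod_empty]
      exact EqPunct.refl _
  | insert a s ha ih =>
      simp only [Finset.prod_insert ha]
      exact eqPunct_mul (h a (Finset.mem_insert_self a s))
        (ih fun i hi => h i (Finset.mem_insert_of_mem hi))

theorem meroH_comp {f : ℍ → ℂ} (hf : MeroH f) {φ : ℍ → ℍ}
    (hφ : MDiff (fun τ : ℍ => ((φ τ : ℍ) : ℂ))) : MeroH (fun τ => f (φ τ)) := by
  intro z hz
  obtain ⟨τ, rfl⟩ : ∃ τ : ℍ, (τ : ℂ) = z := ⟨⟨z, hz⟩, rfl⟩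
  have h1 : AnalyticAt ℂ (fun w => ((φ (ofComplex w) : ℍ) : ℂ)) (τ : ℂ) :=
    analyticAt_of_mdifferentiable hφ τ
  have hf' := hf ((φ τ : ℍ) : ℂ) (φ τ).im_pos
  have h2 : MeromorphicAt (f ∘ ofComplex)
      ((fun w => ((φ (ofComplex w) : ℍ) : ℂ)) (τ : ℂ)) := by
    simpa [ofComplex_apply] using hf'
  refine (MeromorphicAt.comp_analyticAt (g := fun w => ((φ (ofComplex w) : ℍ) : ℂ)) h2 h1).congr
    (Eventually.of_forall fun w => ?_)
  simp [ofComplex_apply]

theorem meroH_comp_smul {f : ℍ → ℂ} (hf : MeroH f) (a : SL(2, ℤ)) :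
    MeroH (fun τ => f (a • τ)) :=
  meroH_comp hf (mdifferentiable_coe_smul a)

theorem meroH_comp_scale {f : ℍ → ℂ} (hf : MeroH f) (d : ℕ) [NeZero d] :
    MeroH (fun τ => f (scale d τ)) :=
  meroH_comp hf (mdifferentiable_scale d)

theorem meroH_prod {κ : Type*} (s : Finset κ) {f : κ → ℍ → ℂ} (h : ∀ i ∈ s, MeroH (f i)) :
    MeroH (fun τ => ∏ i ∈ s, f i τ) := fun z hz =>
  MeromorphicAt.fun_prod (F := fun i w => f i (ofComplex w)) fun i hi => h i hi z hz

theorem eq_of_eqPunct_of_analyticAt {f g : ℍ → ℂ} (h : EqPunct f g) {τ : ℍ}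
    (hf : AnalyticAt ℂ (f ∘ ofComplex) (τ : ℂ)) (hg : AnalyticAt ℂ (g ∘ ofComplex) (τ : ℂ)) :
    f τ = g τ := by
  have := tendsto_nhds_unique (hf.continuousAt.tendsto.mono_left nhdsWithin_le_nhds)
    ((hg.continuousAt.tendsto.mono_left nhdsWithin_le_nhds).congr' (h τ).symm)
  simpa [ofComplex_apply] using this

theorem eq_of_eqPunct {f g : ℍ → ℂ} (h : EqPunct f g) (hf : MDiff f) (hg : MDiff g) : f = g :=
  funext fun τ => eq_of_eqPunct_of_analyticAt h (analyticAt_of_mdifferentiable hf τ)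
    (analyticAt_of_mdifferentiable hg τ)

/-- Functions equal away from a discrete set have the same expansion. -/
theorem hasQExp_unique_of_eqPunct {h : ℕ} [NeZero h] {f g : ℍ → ℂ} {x y : LaurentSeries ℂ}
    (hf : HasQExp h f x) (hg : HasQExp h g y) (he : EqPunct f g) : x = y := by
  refine (hf.congr ?_).unique hg
  filter_upwards [hf.eventually_analyticAt, hg.eventually_analyticAt] with τ h1 h2
  exact eq_of_eqPunct_of_analyticAt he h1 h2

/-- A meromorphic function is determined by its expansion. -/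
theorem eqPunct_of_hasQExp {h : ℕ} {f g : ℍ → ℂ} {x : LaurentSeries ℂ} (hf : MeroH f)
    (hg : MeroH g) (hfx : HasQExp h f x) (hgx : HasQExp h g x) : EqPunct f g := by
  have hm : MeroH (f - g) := fun z hz => (hf z hz).sub (hg z hz)
  have h0 : HasQExp h (f - g) 0 := by
    have := hfx.sub hgx
    rwa [sub_self] at this
  have hev := h0.eventually_eq_zero
  rw [Filter.Eventually, atImInfty_mem] at hev
  obtain ⟨A, hA⟩ := hev
  let τ₀ : ℍ := ⟨((|A| + 1 : ℝ) : ℂ) * Complex.I, by
    simp only [Complex.mul_I_im, Complex.ofReal_re]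
    positivity⟩
  have hτ₀ : A < τ₀.im := by
    show A < (((|A| + 1 : ℝ) : ℂ) * Complex.I).im
    rw [Complex.mul_I_im, Complex.ofReal_re]
    linarith [le_abs_self A]
  have htop : ordH (f - g) τ₀ = ⊤ := by
    unfold ordH
    rw [meromorphicOrderAt_eq_top_iff]
    apply Filter.Eventually.filter_mono nhdsWithin_le_nhds
    filter_upwards [(isOpen_lt continuous_const Complex.continuous_im).mem_nhds hτ₀,
      isOpen_upperHalfPlaneSet.mem_nhds τ₀.im_pos] with z hz hz'
    refine hA (ofComplex z) ?_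
    rw [ofComplex_apply_of_im_pos hz']
    exact le_of_lt hz
  have hzero := (ModFun.ordH_eq_top_iff hm).1 htop
  intro τ
  filter_upwards [hzero τ] with z hz
  simpa [sub_eq_zero] using hz

end Fermat.Agent.HeckeJ

end
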