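/-
The meromorphic function of an element of the arithmetic modular function field, and its
expansion at a translate of `i∞`.
-/
import Fermat.Agent.HeckeJ.Analytic

set_option autoImplicit false
set_option linter.style.haveILetI false

noncomputable section

namespace Fermat.Agent.HeckeJ

open UpperHalfPlane CongruenceSubgroup ModularCurve
open Fermat.Agent.ModFun (EqPunct MeroH IsModularFun HasQExp)
open scoped MatrixGroups Manifold

local notation "Qbar" => AlgebraicClosure ℚ

variable {N : ℕ} [NeZero N] (ι : Qbar →+* ℂ)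

/-- The function on the upper half plane attached to `x` through `ι`. -/
def barFun (x : modularFunctionFieldBar N) : ℍ → ℂ := ModFun.toFun (ModFun.barToC N ι x)

theorem isModularFun_barFun (x : modularFunctionFieldBar N) : IsModularFun N (barFun ι x) :=
  ModFun.isModularFun_toFun _

theorem barFun_smul (x : modularFunctionFieldBar N) {γ : SL(2, ℤ)} (hγ : γ ∈ Gamma0 N) (τ : ℍ) :
    barFun ι x (γ • τ) = barFun ι x τ :=
  (isModularFun_barFun ι x).smul_eq γ hγ τ

theorem hasQExp_barFun (x : modularFunctionFieldBar N) :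
    HasQExp 1 (barFun ι x) (coeffMap ι (x : LaurentSeries Qbar)) :=
  ModFun.hasQExp_toFun _

theorem barFun_add (x y : modularFunctionFieldBar N) :
    EqPunct (barFun ι (x + y)) (barFun ι x + barFun ι y) := by
  unfold barFun
  rw [map_add]
  exact ModFun.toFun_add _ _

theorem barFun_mul (x y : modularFunctionFieldBar N) :
    EqPunct (barFun ι (x * y)) (barFun ι x * barFun ι y) := by
  unfold barFun
  rw [map_mul]
  exact ModFun.toFun_mul _ _

theorem eqPunct_barFun {x : modularFunctionFieldBar N} {F : ℍ → ℂ} (hF : MeroH F)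
    (hx : HasQExp 1 F (coeffMap ι (x : LaurentSeries Qbar))) : EqPunct (barFun ι x) F :=
  eqPunct_of_hasQExp (isModularFun_barFun ι x).mero hF (hasQExp_barFun ι x) hx

theorem barFun_one : EqPunct (barFun ι (1 : modularFunctionFieldBar N)) 1 := by
  refine eqPunct_barFun ι (IsModularFun.const (N := N) (1 : ℂ)).mero ?_
  rw [OneMemClass.coe_one, map_one]
  exact HasQExp.one

theorem barFun_zero : EqPunct (barFun ι (0 : modularFunctionFieldBar N)) 0 := by
  refine eqPunct_barFun ι (IsModularFun.const (N := N) (0 : ℂ)).mero ?_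
  rw [ZeroMemClass.coe_zero, map_zero]
  exact HasQExp.zero

section Degeneracy

variable (ℓ : ℕ) [NeZero ℓ]

theorem barFun_heckeAlphaBar (x : modularFunctionFieldBar N) :
    EqPunct (barFun ι (heckeAlphaBar Qbar N ℓ x)) (barFun ι x) := by
  refine eqPunct_barFun ι (isModularFun_barFun ι x).mero ?_
  rw [coe_heckeAlphaBar]
  exact hasQExp_barFun ι x

theorem barFun_heckeBetaBar (x : modularFunctionFieldBar N) :
    EqPunct (barFun ι (heckeBetaBar Qbar N ℓ x)) (fun τ => barFun ι x (scale ℓ τ)) := by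
  refine eqPunct_barFun ι (meroH_comp_scale (isModularFun_barFun ι x).mero ℓ) ?_
  rw [coe_heckeBetaBar, ModularCurve.coeffMap_qExpand]
  exact (hasQExp_barFun ι x).comp_mul ℓ

omit [NeZero N] in
theorem scale_invariant {F : ℍ → ℂ} (hF : ∀ γ ∈ Gamma0 N, ∀ τ, F (γ • τ) = F τ)
    {γ : SL(2, ℤ)} (hγ : γ ∈ Gamma0 (N * ℓ)) (τ : ℍ) :
    F (scale ℓ (γ • τ)) = F (scale ℓ τ) := by
  rw [show γ = ((⟨γ, hγ⟩ : Gamma0 (N * ℓ)) : SL(2, ℤ)) from rfl, scale_smul]
  exact hF _ (conjScale ℓ _).2 _

end Degeneracy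

/-- The expansion of `τ ↦ x (g τ)` in `q_N`. -/
def expAt (g : SL(2, ℤ)) (x : modularFunctionFieldBar N) : LaurentSeries ℂ :=
  ((isModularFun_barFun ι x).cusps g).choose

theorem hasQExp_expAt (g : SL(2, ℤ)) (x : modularFunctionFieldBar N) :
    HasQExp N (fun τ => barFun ι x (g • τ)) (expAt ι g x) :=
  ((isModularFun_barFun ι x).cusps g).choose_spec

theorem expAt_eq {g : SL(2, ℤ)} {x : modularFunctionFieldBar N} {F : ℍ → ℂ}
    {y : LaurentSeries ℂ} (hF : HasQExp N F y)
    (he : EqPunct (fun τ => barFun ι x (g • τ)) F) : expAt ι g x = y :=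
  hasQExp_unique_of_eqPunct (hasQExp_expAt ι g x) hF he

/-- The expansion at `g i∞` as a ring homomorphism. -/
def expHom (g : SL(2, ℤ)) : modularFunctionFieldBar N →+* LaurentSeries ℂ where
  toFun := expAt ι g
  map_one' := expAt_eq ι HasQExp.one (eqPunct_comp_smul (barFun_one ι) g)
  map_mul' x y := expAt_eq ι ((hasQExp_expAt ι g x).mul (hasQExp_expAt ι g y))
    (eqPunct_comp_smul (barFun_mul ι x y) g)
  map_zero' := expAt_eq ι HasQExp.zero (eqPunct_comp_smul (barFun_zero ι) g)
  map_add' x y := expAt_eq ι ((hasQExp_expAt ι g x).add (hasQExp_expAt ι g y))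
    (eqPunct_comp_smul (barFun_add ι x y) g)

theorem hasQExp_expHom (g : SL(2, ℤ)) (x : modularFunctionFieldBar N) :
    HasQExp N (fun τ => barFun ι x (g • τ)) (expHom ι g x) :=
  hasQExp_expAt ι g x

variable (N)

/-- The element `j (N τ)`. -/
def jBar : modularFunctionFieldBar N :=
  ⟨coeffEmb Qbar (qExpand ℚ N jq), coeffEmb_mem_laurentBaseChange Qbar (jqd_mem_full N dvd_rfl)⟩

theorem coeffMap_jBar :
    coeffMap ι (jBar N : LaurentSeries Qbar) = jqNModC ℂ N := by
  show coeffMap ι (coeffEmb Qbar (jqNModC ℚ N)) = jqNModC ℂ N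
  rw [coeffEmb, coeffMap_coeffMap, coeffMap_jqNModC]

theorem barFun_jBar : EqPunct (barFun ι (jBar N)) (ModFun.jNfun N) := by
  refine eqPunct_barFun ι (ModFun.isModularFun_jNfun dvd_rfl).mero ?_
  rw [coeffMap_jBar]
  exact ModFun.hasQExp_jNfun N

/-- Different cosets give different embeddings. -/
theorem mk_eq_of_expHom_eq {g g' : SL(2, ℤ)}
    (h : expHom ι g⁻¹ (jBar N) = expHom ι g'⁻¹ (jBar N)) :
    (QuotientGroup.mk g : SL(2, ℤ) ⧸ Gamma0 N) = QuotientGroup.mk g' := by
  have hd : ∀ a : SL(2, ℤ), MDiff (fun τ => ModFun.jNfun N (a • τ)) := fun a =>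
    (ModFun.mdifferentiable_jNfun N).comp
      (mdifferentiable_smul (g := Matrix.SpecialLinearGroup.mapGL ℝ a) (by simp))
  have hm : ∀ a : SL(2, ℤ), MeroH (fun τ => ModFun.jNfun N (a • τ)) := fun a =>
    ModFun.meroH_of_mdifferentiable (hd a)
  have hj : ∀ a : SL(2, ℤ), EqPunct (fun τ => barFun ι (jBar N) (a • τ))
      (fun τ => ModFun.jNfun N (a • τ)) := fun a => eqPunct_comp_smul (barFun_jBar N ι) a
  have key : EqPunct (fun τ => barFun ι (jBar N) (g⁻¹ • τ))
      (fun τ => barFun ι (jBar N) (g'⁻¹ • τ)) :=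
    eqPunct_of_hasQExp (meroH_comp_smul (isModularFun_barFun ι _).mero _)
      (meroH_comp_smul (isModularFun_barFun ι _).mero _) (hasQExp_expHom ι _ _)
      (h ▸ hasQExp_expHom ι _ _)
  refine ModFun.jConjFun_injective N ?_
  exact eq_of_eqPunct (((hj g⁻¹).symm.trans key).trans (hj g'⁻¹)) (hd g⁻¹) (hd g'⁻¹)

end Fermat.Agent.HeckeJ

end
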