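/-
The norm from `X₀(Nℓ)` to `X₀(N)` is the product over the cosets, and the divisor of
`Norm (β f)` is the image of `div f` under the Hecke correspondence.
-/
import Fermat.Agent.HeckeJ.Expansion
import Fermat.Agent.HeckeJ.Operator
import Fermat.Agent.ES.SpecialCorr
import Mathlib.RingTheory.Norm.Transitivity
import Mathlib.FieldTheory.IsAlgClosed.AlgebraicClosure

set_option autoImplicit false
set_option linter.style.haveILetI false

noncomputable section

namespace Fermat.Agent.HeckeJ

open UpperHalfPlane CongruenceSubgroup ModularCurve AlgebraicCurve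
open Fermat.Agent.ModFun (EqPunct MeroH IsModularFun HasQExp)
open scoped MatrixGroups

/-- The norm is the product of any full set of distinct embeddings into a field. -/
theorem map_norm_eq_prod {K F R : Type*} [Field K] [CharZero K] [Field F] [Field R]
    [Algebra K F] [FiniteDimensional K F] (j : K →+* R) {κ : Type*} [Fintype κ]
    (σ : κ → F →+* R) (hσ : ∀ i y, σ i (algebraMap K F y) = j y) (hinj : Function.Injective σ)
    (hcard : Fintype.card κ = Module.finrank K F) (x : F) :
    j (Algebra.norm K x) = ∏ i, σ i x := by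
  haveI : Algebra.IsSeparable K F := Algebra.IsSeparable.of_integral K F
  let e : R →+* AlgebraicClosure R := algebraMap R (AlgebraicClosure R)
  letI : Algebra K (AlgebraicClosure R) := (e.comp j).toAlgebra
  let τ : κ → F →ₐ[K] AlgebraicClosure R := fun i =>
    { e.comp (σ i) with commutes' := fun y => congrArg e (hσ i y) }
  have hτ : Function.Injective τ := fun a b h =>
    hinj (RingHom.ext fun y => e.injective (DFunLike.congr_fun h y))
  have hbij : Function.Bijective τ := (Fintype.bijective_iff_injective_and_card τ).2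
    ⟨hτ, hcard.trans (AlgHom.card K F (AlgebraicClosure R)).symm⟩
  apply e.injective
  rw [map_prod]
  show algebraMap K (AlgebraicClosure R) (Algebra.norm K x) = _
  rw [Algebra.norm_eq_prod_embeddings K (AlgebraicClosure R) x]
  exact (Fintype.prod_bijective τ hbij _ _ fun _ => rfl).symm

theorem map_normAlong_eq_prod {L F F' R : Type*} [Field L] [CharZero L] [Field F] [Field F']
    [Algebra L F] [Algebra L F'] [Field R] (φ : F →ₐ[L] F') (hfin : FiniteAlong L φ)
    (j : F →+* R) {κ : Type*} [Fintype κ] (σ : κ → F' →+* R)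
    (hσ : ∀ i y, σ i (φ y) = j y) (hinj : Function.Injective σ)
    (hcard : Fintype.card κ = finrankAlong L φ) (x : F') :
    j (letI := algebraAlong φ; Algebra.norm F x) = ∏ i, σ i x := by
  letI := algebraAlong φ
  haveI : FiniteDimensional F F' := hfin
  haveI : CharZero F := charZero_of_injective_algebraMap (algebraMap L F).injective
  exact map_norm_eq_prod j σ hσ hinj hcard x

theorem norm_ne_zero {K F : Type*} [Field K] [Field F] [Algebra K F] [FiniteDimensional K F]
    {x : F} (hx : x ≠ 0) : Algebra.norm K x ≠ 0 :=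
  Algebra.norm_ne_zero_iff.2 hx

section NormDef

variable (L : Type*) [Field L] [Algebra ℚ L] (N ℓ : ℕ) [NeZero N] [NeZero ℓ]

/-- The norm along `heckeAlphaBar`. -/
def normA (z : laurentBaseChange L (modularFunctionFieldFull (N * ℓ))) :
    laurentBaseChange L (modularFunctionFieldFull N) :=
  letI := algebraAlong (heckeAlphaBar L N ℓ)
  Algebra.norm (laurentBaseChange L (modularFunctionFieldFull N)) z

/-- `Norm_α (β f)`. -/
def heckeFun (f : laurentBaseChange L (modularFunctionFieldFull N)) :
    laurentBaseChange L (modularFunctionFieldFull N) :=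
  normA L N ℓ (heckeBetaBar L N ℓ f)

theorem normA_ne_zero {z : laurentBaseChange L (modularFunctionFieldFull (N * ℓ))} (hz : z ≠ 0) :
    normA L N ℓ z ≠ 0 := by
  letI := algebraAlong (heckeAlphaBar L N ℓ)
  haveI : FiniteDimensional (laurentBaseChange L (modularFunctionFieldFull N))
      (laurentBaseChange L (modularFunctionFieldFull (N * ℓ))) :=
    finiteAlong_heckeAlphaBar L N ℓ
  exact norm_ne_zero (K := laurentBaseChange L (modularFunctionFieldFull N)) hz

theorem heckeFun_ne_zero {f : laurentBaseChange L (modularFunctionFieldFull N)} (hf : f ≠ 0) :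
    heckeFun L N ℓ f ≠ 0 :=
  normA_ne_zero L N ℓ ((map_ne_zero_iff _ (heckeBetaBar L N ℓ).toRingHom.injective).2 hf)

/-- The Hecke correspondence sends `div f` to `div (Norm_α (β f))`. -/
theorem heckeDiv_apply_of_ord {f : laurentBaseChange L (modularFunctionFieldFull N)} (hf : f ≠ 0)
    {D : Divisor L (laurentBaseChange L (modularFunctionFieldFull N))}
    (hD : ∀ v, D v = v.ord f) (v : Place L (laurentBaseChange L (modularFunctionFieldFull N))) :
    heckeDiv L N ℓ D v = v.ord (heckeFun L N ℓ f) := by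
  haveI := hasPrincipalDivisors_laurentBaseChange L (N * ℓ)
  exact ES.correspondence_apply_principal (heckeBetaBar L N ℓ) (heckeAlphaBar L N ℓ)
    (heckeBetaBarIntegral L N ℓ) (heckeAlphaBarIntegral L N ℓ)
    (finiteAlong_heckeAlphaBar L N ℓ) (normFormulaAlong_heckeAlphaBar L N ℓ) hf hD v

/-- If `n D = div f` then `n (T D) = div (Norm_α (β f))`. -/
theorem mul_heckeDiv_apply {f : laurentBaseChange L (modularFunctionFieldFull N)} (hf : f ≠ 0)
    {D : Divisor L (laurentBaseChange L (modularFunctionFieldFull N))} (n : ℤ)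
    (hD : ∀ v, n * D v = v.ord f) (v : Place L (laurentBaseChange L (modularFunctionFieldFull N))) :
    n * heckeDiv L N ℓ D v = v.ord (heckeFun L N ℓ f) := by
  rw [← heckeDiv_apply_of_ord L N ℓ hf (D := n • D) (fun w => by simpa using hD w) v, map_zsmul]
  simp

end NormDef

local notation "Qbar" => AlgebraicClosure ℚ

variable {N ℓ : ℕ} [NeZero N] [NeZero ℓ] (ι : Qbar →+* ℂ)

omit [NeZero N] in
theorem cosetProd_eqPunct {M : ℕ} [NeZero M] {F G : ℍ → ℂ} (h : EqPunct F G) :
    EqPunct (cosetProd N M F) (cosetProd N M G) :=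
  eqPunct_prod Finset.univ fun _ _ => eqPunct_comp_smul h _

omit [NeZero N] in
theorem meroH_cosetProd {M : ℕ} [NeZero M] {F : ℍ → ℂ} (h : MeroH F) :
    MeroH (cosetProd N M F) :=
  meroH_prod Finset.univ fun _ _ => meroH_comp_smul h _

/-- The embedding of `F_{Nℓ}` attached to a coset. -/
def cosetHom (q : RelCoset N (N * ℓ)) : modularFunctionFieldBar (N * ℓ) →+* LaurentSeries ℂ :=
  expHom ι ((Quotient.out q : Gamma0 N) : SL(2, ℤ))⁻¹

theorem cosetHom_heckeAlphaBar (q : RelCoset N (N * ℓ)) (y : modularFunctionFieldBar N) :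
    cosetHom ι q (heckeAlphaBar Qbar N ℓ y) =
      expHom ι 1 (heckeAlphaBar Qbar N ℓ y) := by
  refine hasQExp_unique_of_eqPunct (hasQExp_expHom ι _ _) (hasQExp_expHom ι _ _) ?_
  refine ((eqPunct_comp_smul (barFun_heckeAlphaBar ι ℓ y) _).trans ?_).trans
    (eqPunct_comp_smul (barFun_heckeAlphaBar ι ℓ y) _).symm
  simp only [one_smul, barFun_smul ι y (inv_mem (Quotient.out q : Gamma0 N).2)]
  exact EqPunct.refl _

theorem cosetHom_injective :
    Function.Injective (fun q : RelCoset N (N * ℓ) => cosetHom ι q) := by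
  intro a b h
  have h' := mk_eq_of_expHom_eq (N * ℓ) ι (DFunLike.congr_fun h (jBar (N * ℓ)))
  rw [← QuotientGroup.out_eq' a, ← QuotientGroup.out_eq' b, relCoset_mk_eq_iff]
  exact QuotientGroup.eq.1 h'

/-- The norm from `X₀(Nℓ)` to `X₀(N)` is the product over the cosets. -/
theorem barFun_normA (hℓ : ℓ.Prime) (z : modularFunctionFieldBar (N * ℓ)) :
    EqPunct (barFun ι (normA Qbar N ℓ z)) (cosetProd N (N * ℓ) (barFun ι z)) := by
  have key : expHom ι 1 (heckeAlphaBar Qbar N ℓ (normA Qbar N ℓ z)) =
      ∏ q : RelCoset N (N * ℓ), cosetHom ι q z := by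
    have h := map_normAlong_eq_prod (R := LaurentSeries ℂ) (heckeAlphaBar Qbar N ℓ)
      (finiteAlong_heckeAlphaBar Qbar N ℓ)
      ((expHom ι 1).comp (heckeAlphaBar Qbar N ℓ).toRingHom)
      (fun q => cosetHom ι q) (fun q y => cosetHom_heckeAlphaBar ι q y) (cosetHom_injective ι)
      ((card_relCoset hℓ).trans (finrankAlong_heckeAlphaBar Qbar N hℓ).symm) z
    rw [RingHom.comp_apply] at h
    unfold normA
    exact h
  have h1 : HasQExp (N * ℓ)
      (fun τ => barFun ι (heckeAlphaBar Qbar N ℓ (normA Qbar N ℓ z)) ((1 : SL(2, ℤ)) • τ))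
      (∏ q : RelCoset N (N * ℓ), cosetHom ι q z) :=
    key ▸ hasQExp_expHom ι 1 _
  have h2 : HasQExp (N * ℓ) (cosetProd N (N * ℓ) (barFun ι z))
      (∏ q : RelCoset N (N * ℓ), cosetHom ι q z) := by
    have h := HasQExp.prod (h := N * ℓ) (s := Finset.univ) fun (q : RelCoset N (N * ℓ)) _ =>
      hasQExp_expHom ι ((Quotient.out q : Gamma0 N) : SL(2, ℤ))⁻¹ z
    rw [Finset.prod_fn] at h
    exact h
  have h3 := eqPunct_of_hasQExp (meroH_comp_smul (isModularFun_barFun ι _).mero _)
    (meroH_cosetProd (isModularFun_barFun ι z).mero) h1 h2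
  simp only [one_smul] at h3
  exact (barFun_heckeAlphaBar ι ℓ _).symm.trans h3

/-- `Norm_α (β f)` as a function: the product of `f (ℓ δ⁻¹ τ)` over `δ ∈ Γ₀(N) ⧸ Γ₀(Nℓ)`. -/
theorem barFun_heckeFun (hℓ : ℓ.Prime) (f : modularFunctionFieldBar N) :
    EqPunct (barFun ι (heckeFun Qbar N ℓ f))
      (cosetProd N (N * ℓ) fun τ => barFun ι f (scale ℓ τ)) :=
  (barFun_normA ι hℓ _).trans (cosetProd_eqPunct (barFun_heckeBetaBar ι ℓ f))

end Fermat.Agent.HeckeJ

end
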