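/-
The Hecke operators on `J₀(N)` commute.
-/
import Fermat.Agent.HeckeJ.Norm
import Fermat.Agent.ES.SpecialRR
import Fermat.Agent.Curve.BasicInstances
import Fermat.Agent.Galois.QbarInstances

set_option autoImplicit false
set_option linter.style.haveILetI false

noncomputable section

namespace Fermat.Agent.HeckeJ

open UpperHalfPlane CongruenceSubgroup ModularCurve AlgebraicCurve
open Fermat.Agent.ModFun (EqPunct MeroH IsModularFun HasQExp)
open scoped MatrixGroups

local notation "Qbar" => AlgebraicClosure ℚ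

theorem coeffMap_injective {R S : Type*} [CommRing R] [CommRing S] (f : R →+* S)
    (hf : Function.Injective f) : Function.Injective (coeffMap f) := fun x y h =>
  HahnSeries.ext (funext fun k => hf (by rw [← coeffMap_coeff, ← coeffMap_coeff, h]))

variable {N : ℕ} [NeZero N] (ι : Qbar →+* ℂ)

theorem eq_of_barFun_eqPunct {x y : modularFunctionFieldBar N}
    (h : EqPunct (barFun ι x) (barFun ι y)) : x = y :=
  Subtype.ext (coeffMap_injective ι ι.injective
    (hasQExp_unique_of_eqPunct (hasQExp_barFun ι x) (hasQExp_barFun ι y) h))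

omit [NeZero N] in
theorem cosetProd_congr {M M' : ℕ} [NeZero M] [NeZero M'] (h : M = M') {F G : ℍ → ℂ}
    (h' : F = G) : cosetProd N M F = cosetProd N M' G := by
  subst h h'; rfl

/-- Composing two Hecke correspondences on functions. -/
theorem barFun_heckeFun_heckeFun {ℓ m : ℕ} [NeZero ℓ] [NeZero m] (hℓ : ℓ.Prime) (hm : m.Prime)
    (hne : ℓ ≠ m) (f : modularFunctionFieldBar N) :
    EqPunct (barFun ι (heckeFun Qbar N m (heckeFun Qbar N ℓ f)))
      (cosetProd N (N * ℓ * m) fun z => barFun ι f (scale (ℓ * m) z)) := by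
  refine (barFun_heckeFun ι hm _).trans ?_
  refine (cosetProd_eqPunct (eqPunct_comp_scale (barFun_heckeFun ι hℓ f) m)).trans ?_
  have hF : ∀ γ ∈ Gamma0 (N * ℓ), ∀ τ,
      barFun ι f (scale ℓ (γ • τ)) = barFun ι f (scale ℓ τ) := fun γ hγ τ =>
    scale_invariant ℓ (fun δ hδ z => barFun_smul ι f hδ z) hγ τ
  have e1 : (fun τ => cosetProd N (N * ℓ) (fun z => barFun ι f (scale ℓ z)) (scale m τ)) =
      cosetProd (N * m) (N * ℓ * m) (fun z => barFun ι f (scale (ℓ * m) z)) :=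
    funext fun τ => by
      rw [cosetProd_scale hℓ hm hne hF]
      simp only [scale_scale]
  have hH : ∀ γ ∈ Gamma0 (N * ℓ * m), ∀ τ,
      barFun ι f (scale (ℓ * m) (γ • τ)) = barFun ι f (scale (ℓ * m) τ) := fun γ hγ τ => by
    rw [← scale_scale, ← scale_scale]
    exact scale_invariant (N := N * ℓ) m (F := fun z => barFun ι f (scale ℓ z)) hF hγ τ
  have e2 : cosetProd N (N * m) (cosetProd (N * m) (N * ℓ * m)
      fun z => barFun ι f (scale (ℓ * m) z)) =
      cosetProd N (N * ℓ * m) (fun z => barFun ι f (scale (ℓ * m) z)) :=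
    funext fun τ => cosetProd_cosetProd (dvd_mul_right N m)
      (mul_dvd_mul (dvd_mul_right N ℓ) dvd_rfl) hH τ
  rw [e1, e2]
  exact EqPunct.refl _

/-- The Hecke correspondences commute on functions. -/
theorem heckeFun_comm {ℓ m : ℕ} [NeZero ℓ] [NeZero m] (hℓ : ℓ.Prime) (hm : m.Prime)
    (f : modularFunctionFieldBar N) :
    heckeFun Qbar N ℓ (heckeFun Qbar N m f) = heckeFun Qbar N m (heckeFun Qbar N ℓ f) := by
  rcases eq_or_ne ℓ m with h | hne
  · subst h; rfl
  let ι : Qbar →+* ℂ := (IsAlgClosed.lift : Qbar →ₐ[ℚ] ℂ).toRingHom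
  refine eq_of_barFun_eqPunct ι ((barFun_heckeFun_heckeFun ι hm hℓ (Ne.symm hne) f).trans ?_)
  rw [cosetProd_congr (show N * m * ℓ = N * ℓ * m by ring)
    (funext fun z => congrArg (barFun ι f) (scale_congr (mul_comm m ℓ) z))]
  exact (barFun_heckeFun_heckeFun ι hℓ hm hne f).symm

section Operators

variable (N) (ℓ : ℕ) [NeZero ℓ]

theorem heckeDiv_nonneg {E : Divisor Qbar (modularFunctionFieldBar N)} (hE : 0 ≤ E) :
    0 ≤ heckeDiv Qbar N ℓ E :=
  haveI := hasPrincipalDivisors_laurentBaseChange Qbar (N * ℓ)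
  ES.correspondence_nonneg (heckeBetaBar Qbar N ℓ) (heckeAlphaBar Qbar N ℓ)
    (heckeBetaBarIntegral Qbar N ℓ) (heckeAlphaBarIntegral Qbar N ℓ) hE

theorem degree_heckeDiv (D : Divisor Qbar (modularFunctionFieldBar N)) :
    Divisor.degree (heckeDiv Qbar N ℓ D) =
      (finrankAlong Qbar (heckeBetaBar Qbar N ℓ) : ℤ) * Divisor.degree D :=
  haveI := hasPrincipalDivisors_laurentBaseChange Qbar (N * ℓ)
  Divisor.degree_correspondence (heckeBetaBar Qbar N ℓ) (heckeAlphaBar Qbar N ℓ)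
    (heckeBetaBarIntegral Qbar N ℓ) (heckeAlphaBarIntegral Qbar N ℓ)
    (fundamentalIdentityAlong_heckeBetaBar Qbar N ℓ) D

end Operators

theorem deg_place_eq_one (P : Place Qbar (modularFunctionFieldBar N)) : P.deg = 1 :=
  IsCurveOver.deg_eq_one_of_isAlgClosed P

theorem heckeDiv_comm {ℓ m : ℕ} [NeZero ℓ] [NeZero m] (hℓ : ℓ.Prime) (hm : m.Prime)
    {D : Divisor Qbar (modularFunctionFieldBar N)} (hD : D ∈ Divisor.degZero) :
    heckeDiv Qbar N ℓ (heckeDiv Qbar N m D) = heckeDiv Qbar N m (heckeDiv Qbar N ℓ D) := by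
  haveI := hasPrincipalDivisors_laurentBaseChange Qbar N
  let δ : Divisor Qbar (modularFunctionFieldBar N) →+ Divisor Qbar (modularFunctionFieldBar N) :=
    (heckeDiv Qbar N ℓ).comp (heckeDiv Qbar N m) - (heckeDiv Qbar N m).comp (heckeDiv Qbar N ℓ)
  suffices h : δ D = 0 by simpa [δ, sub_eq_zero] using h
  refine ES.eq_zero_of_mem_degZero deg_place_eq_one ES.hasEffectiveRep δ ?_
    (C := (finrankAlong Qbar (heckeBetaBar Qbar N ℓ) : ℤ) *
      finrankAlong Qbar (heckeBetaBar Qbar N m)) ?_ hD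
  · rintro E ⟨f, hf, hE⟩
    refine Finsupp.ext fun v => ?_
    have hfl := heckeFun_ne_zero Qbar N ℓ hf
    have hfm := heckeFun_ne_zero Qbar N m hf
    show (heckeDiv Qbar N ℓ (heckeDiv Qbar N m E) - heckeDiv Qbar N m (heckeDiv Qbar N ℓ E)) v = 0
    rw [Finsupp.sub_apply,
      heckeDiv_apply_of_ord Qbar N ℓ hfm (heckeDiv_apply_of_ord Qbar N m hf hE),
      heckeDiv_apply_of_ord Qbar N m hfl (heckeDiv_apply_of_ord Qbar N ℓ hf hE),
      heckeFun_comm hℓ hm f, sub_self]
  · intro E hE Q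
    have h1 := heckeDiv_nonneg N ℓ (heckeDiv_nonneg N m hE)
    have h2 := heckeDiv_nonneg N m (heckeDiv_nonneg N ℓ hE)
    have b1 := ES.apply_le_degree deg_place_eq_one h1 Q
    have b2 := ES.apply_le_degree deg_place_eq_one h2 Q
    rw [degree_heckeDiv, degree_heckeDiv, ← mul_assoc] at b1 b2
    rw [mul_comm (finrankAlong Qbar (heckeBetaBar Qbar N m) : ℤ)] at b2
    show |(heckeDiv Qbar N ℓ (heckeDiv Qbar N m E) -
      heckeDiv Qbar N m (heckeDiv Qbar N ℓ E)) Q| ≤ _
    rw [Finsupp.sub_apply]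
    have p1 : 0 ≤ heckeDiv Qbar N ℓ (heckeDiv Qbar N m E) Q := h1 Q
    have p2 : 0 ≤ heckeDiv Qbar N m (heckeDiv Qbar N ℓ E) Q := h2 Q
    exact abs_sub_le_iff.2 ⟨by linarith, by linarith⟩

/-- The Hecke operators on `J₀(N)` commute. -/
theorem heckeOperatorsCommuteBar (N : ℕ) [NeZero N] : HeckeOperatorsCommuteBar N := by
  intro ℓ m
  haveI : NeZero (ℓ : ℕ) := ⟨ℓ.2.ne_zero⟩
  haveI : NeZero (m : ℕ) := ⟨m.2.ne_zero⟩
  refine LinearMap.ext fun x => ?_
  obtain ⟨D, rfl⟩ := Pic0.mk_surjective x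
  rw [Module.End.mul_apply, Module.End.mul_apply, heckeOperatorBar_mk, heckeOperatorBar_mk,
    heckeOperatorBar_mk, heckeOperatorBar_mk]
  exact congrArg Pic0.mk (Subtype.ext (heckeDiv_comm ℓ.2 m.2 D.2))

end Fermat.Agent.HeckeJ

end
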